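/-
S32lib / Lat (helper8): **the embedding of `ρ.V / (ker f)ρ.V` into `O₂^r`.**
Data: `ρ` over the local ring `T` with a basis `b`; `f : T →ₐ[𝒪] O₂` into a domain; matrices
`A σ ∈ M_r(O₂)`; `w 0, w 1 ∈ O₂^r` linearly independent with `A σ *ᵥ w j = ∑ i, Mw σ i j • w i`;
`P ∈ M₂(O₂)`, `det P ≠ 0`, `Mw σ * P = P * f(matOf ρ b σ)`.
`emb v = ∑ i, (P *ᵥ f(b.repr v)) i • w i` is additive, `f`-semilinear, equivariant
(`emb (ρ σ v) = A σ *ᵥ emb v`), has kernel `(ker f) • ⊤`, and its image has bounded saturation index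
with respect to any `x : 𝒪`.
-/
import Mathlib
import Fermat.Agent.S31lib.RG.Rigidity
import Fermat.Agent.S32lib.Alg.SatBound

set_option autoImplicit false
set_option linter.unusedSectionVars false
set_option linter.style.haveILetI false

noncomputable section

namespace Fermat.Agent.S32lib

open IsLocalRing Matrix Fermat.Agent.S31lib.RG

/-- `ℚ̄` -/
local notation "Qb" => AlgebraicClosure ℚ
/-- `G_ℚ` -/
local notation "GQ" => (AlgebraicClosure ℚ ≃ₐ[ℚ] AlgebraicClosure ℚ)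

section emb

variable {T : Type} [CommRing T] [IsLocalRing T] (ρ : GaloisRepAdic T)
  (b : Module.Basis (Fin 2) T ρ.V)
  {O₂ : Type} [CommRing O₂] (f : T →+* O₂) {r : ℕ}
  (w : Fin 2 → (Fin r → O₂)) (P : Matrix (Fin 2) (Fin 2) O₂)

/-- the coordinates of `v`, pushed along `f`. -/
def coordOf (v : ρ.V) : Fin 2 → O₂ := fun k => f (b.repr v k)

theorem coordOf_add (v v' : ρ.V) : coordOf ρ b f (v + v') = coordOf ρ b f v + coordOf ρ b f v' := by
  funext k
  simp [coordOf]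

theorem coordOf_smul (t : T) (v : ρ.V) : coordOf ρ b f (t • v) = f t • coordOf ρ b f v := by
  funext k
  simp [coordOf]

theorem coordOf_map (σ : GQ) (v : ρ.V) :
    coordOf ρ b f (ρ.ρ σ v) = (matOf ρ b σ).map f *ᵥ coordOf ρ b f v := by
  funext k
  have h1 := LinearMap.toMatrix_mulVec_repr b b (ρ.ρ σ) v
  have h2 := congrFun h1 k
  show f (b.repr (ρ.ρ σ v) k) = _
  rw [← h2, matOf_apply]
  simp only [Matrix.mulVec, dotProduct, Matrix.map_apply, coordOf, map_sum, map_mul]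

theorem coordOf_eq_zero_iff (v : ρ.V) :
    coordOf ρ b f v = 0 ↔ v ∈ (RingHom.ker f) • (⊤ : Submodule T ρ.V) := by
  rw [mem_smul_top_iff_repr b]
  constructor
  · intro h k
    exact congrFun h k
  · intro h
    funext k
    exact h k

/-- the embedding. -/
def emb (v : ρ.V) : Fin r → O₂ := ∑ i, (P *ᵥ coordOf ρ b f v) i • w i

theorem emb_add (v v' : ρ.V) : emb ρ b f w P (v + v') = emb ρ b f w P v + emb ρ b f w P v' := by
  unfold emb
  rw [coordOf_add, Matrix.mulVec_add, ← Finset.sum_add_distrib]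
  refine Finset.sum_congr rfl fun i _ => ?_
  rw [Pi.add_apply, add_smul]

theorem emb_smul (t : T) (v : ρ.V) : emb ρ b f w P (t • v) = f t • emb ρ b f w P v := by
  unfold emb
  rw [coordOf_smul, Matrix.mulVec_smul, Finset.smul_sum]
  refine Finset.sum_congr rfl fun i _ => ?_
  rw [Pi.smul_apply, smul_eq_mul, mul_smul]

theorem emb_zero : emb ρ b f w P 0 = 0 := by
  have := emb_smul ρ b f w P 0 0
  rw [zero_smul, map_zero, zero_smul] at this
  exact this

/-- the embedding as an additive map. -/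
def embHom : ρ.V →+ (Fin r → O₂) where
  toFun := emb ρ b f w P
  map_zero' := emb_zero ρ b f w P
  map_add' := emb_add ρ b f w P

@[simp] theorem embHom_apply (v : ρ.V) : embHom ρ b f w P v = emb ρ b f w P v := rfl

/-- **equivariance.** -/
theorem emb_map (A : GQ → Matrix (Fin r) (Fin r) O₂) (Mw : GQ → Matrix (Fin 2) (Fin 2) O₂)
    (hA : ∀ (σ : GQ) (j : Fin 2), A σ *ᵥ w j = ∑ i, Mw σ i j • w i)
    (hP : ∀ σ : GQ, Mw σ * P = P * (matOf ρ b σ).map f) (σ : GQ) (v : ρ.V) :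
    emb ρ b f w P (ρ.ρ σ v) = A σ *ᵥ emb ρ b f w P v := by
  unfold emb
  rw [coordOf_map, Matrix.mulVec_mulVec, ← hP σ, ← Matrix.mulVec_mulVec]
  generalize P *ᵥ coordOf ρ b f v = y
  -- `∑ i, (Mw σ *ᵥ y) i • w i = A σ *ᵥ ∑ j, y j • w j`
  have h1 : A σ *ᵥ ∑ j, y j • w j = ∑ j, y j • ∑ i, Mw σ i j • w i := by
    rw [Matrix.mulVec_sum]
    refine Finset.sum_congr rfl fun j _ => ?_
    rw [Matrix.mulVec_smul, hA]
  rw [h1]
  simp only [Matrix.mulVec, dotProduct, Finset.sum_smul, Finset.smul_sum]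
  rw [Finset.sum_comm]
  refine Finset.sum_congr rfl fun j _ => Finset.sum_congr rfl fun i _ => ?_
  rw [smul_smul, mul_comm]

variable [IsDomain O₂]

/-- **the kernel.** -/
theorem emb_eq_zero_iff (hw : LinearIndependent O₂ w) (hP : P.det ≠ 0) (v : ρ.V) :
    emb ρ b f w P v = 0 ↔ v ∈ (RingHom.ker f) • (⊤ : Submodule T ρ.V) := by
  rw [← coordOf_eq_zero_iff]
  constructor
  · intro h
    have h1 : P *ᵥ coordOf ρ b f v = 0 := by
      funext i
      exact (Fintype.linearIndependent_iff.mp hw) _ h i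
    exact Matrix.eq_zero_of_mulVec_eq_zero hP h1
  · intro h
    unfold emb
    rw [h, Matrix.mulVec_zero]
    simp

end emb

section sat

variable {𝒪 : Type} [CommRing 𝒪] {T : Type} [CommRing T] [IsLocalRing T] [Algebra 𝒪 T]
  (ρ : GaloisRepAdic T) (b : Module.Basis (Fin 2) T ρ.V)
  {O₂ : Type} [CommRing O₂] [IsDomain O₂] [Algebra 𝒪 O₂] (f : T →ₐ[𝒪] O₂) {r : ℕ}
  (w : Fin 2 → (Fin r → O₂)) (P : Matrix (Fin 2) (Fin 2) O₂)

/-- the image of `emb`, as an `𝒪`-submodule of `O₂^r`. -/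
def embRange : Submodule 𝒪 (Fin r → O₂) where
  carrier := Set.range (emb ρ b (f : T →+* O₂) w P)
  add_mem' := by
    rintro _ _ ⟨v, rfl⟩ ⟨v', rfl⟩
    exact ⟨v + v', emb_add ρ b _ w P v v'⟩
  zero_mem' := ⟨0, emb_zero ρ b _ w P⟩
  smul_mem' := by
    rintro c _ ⟨v, rfl⟩
    refine ⟨algebraMap 𝒪 T c • v, ?_⟩
    rw [emb_smul]
    have : (f : T →+* O₂) (algebraMap 𝒪 T c) = algebraMap 𝒪 O₂ c := f.commutes c
    rw [this]
    funext i
    rw [Pi.smul_apply, Pi.smul_apply, smul_eq_mul, Algebra.smul_def]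

/-- **bounded saturation index of the image.** -/
theorem exists_emb_bound [IsNoetherian 𝒪 (Fin r → O₂)] (hw : LinearIndependent O₂ w)
    (hP : P.det ≠ 0) (x : 𝒪) :
    ∃ c : ℕ, ∀ (v : ρ.V) (m : ℕ) (u : Fin r → O₂),
      emb ρ b (f : T →+* O₂) w P v = algebraMap 𝒪 O₂ x ^ (m + c) • u →
      v ∈ (RingHom.ker (f : T →+* O₂) ⊔ Ideal.span {algebraMap 𝒪 T x ^ m}) •
        (⊤ : Submodule T ρ.V) := by
  obtain ⟨c, hc⟩ := exists_saturation_bound (embRange ρ b f w P) x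
  refine ⟨c, fun v m u hu => ?_⟩
  have hsm : ∀ (k : ℕ) (y : Fin r → O₂), x ^ k • y = algebraMap 𝒪 O₂ x ^ k • y := by
    intro k y
    funext i
    rw [Pi.smul_apply, Pi.smul_apply, Algebra.smul_def, smul_eq_mul, map_pow]
  have h1 : x ^ (m + c) • u ∈ embRange ρ b f w P := ⟨v, by rw [hu, hsm]⟩
  obtain ⟨v', hv'⟩ := hc u (m + c) h1
  -- `emb v = x^m • emb v'`
  have h2 : emb ρ b (f : T →+* O₂) w P v =
      emb ρ b (f : T →+* O₂) w P (algebraMap 𝒪 T x ^ m • v') := by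
    rw [emb_smul, hv', hu, hsm, map_pow]
    have : (f : T →+* O₂) (algebraMap 𝒪 T x) = algebraMap 𝒪 O₂ x := f.commutes x
    rw [this, smul_smul, ← pow_add]
  have h3 : emb ρ b (f : T →+* O₂) w P (v - algebraMap 𝒪 T x ^ m • v') = 0 := by
    have := emb_add ρ b (f : T →+* O₂) w P (v - algebraMap 𝒪 T x ^ m • v')
      (algebraMap 𝒪 T x ^ m • v')
    rw [sub_add_cancel, ← h2] at this
    exact right_eq_add.mp this
  have h4 := (emb_eq_zero_iff ρ b (f : T →+* O₂) w P hw hP _).mp h3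
  rw [Submodule.sup_smul]
  have h5 : v = (v - algebraMap 𝒪 T x ^ m • v') + algebraMap 𝒪 T x ^ m • v' := by abel
  rw [h5]
  refine Submodule.add_mem_sup h4 ?_
  exact Submodule.smul_mem_smul (Ideal.subset_span rfl) Submodule.mem_top

end sat

end Fermat.Agent.S32lib
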