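/-
S32lib / Lat (helper8): **the intertwiner.**  `ρ` residually absolutely irreducible over the local
ring `T`, `f : T → O₂` a ring hom into a domain, `Mw : G_ℚ → M₂(O₂)` a representation satisfying the
Cayley–Hamilton relation of `f(matOf ρ b σ)` for every `σ`.  Then there is `P ∈ M₂(O₂)` with
`det P ≠ 0` and `Mw σ * P = P * f(matOf ρ b σ)`.
-/
import Mathlib
import Fermat.Agent.S31lib.RG.Rigidity
import Fermat.Agent.S32lib.Rep.Quad

set_option autoImplicit false
set_option linter.unusedSectionVars false
set_option linter.style.haveILetI false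

noncomputable section

namespace Fermat.Agent.S32lib

open IsLocalRing Matrix Fermat.Agent.S31lib.RG

/-- `ℚ̄` -/
local notation "Qb" => AlgebraicClosure ℚ
/-- `G_ℚ` -/
local notation "GQ" => (AlgebraicClosure ℚ ≃ₐ[ℚ] AlgebraicClosure ℚ)

section span

variable {G T F n : Type*} [CommRing T] [CommRing F] [Fintype n] [DecidableEq n]

/-- a spanning family of matrices stays spanning after a ring hom. -/
theorem span_range_map_eq_top (M : G → Matrix n n T)
    (h : Submodule.span T (Set.range M) = ⊤) (f : T →+* F) :
    Submodule.span F (Set.range fun σ => (M σ).map f) = ⊤ := by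
  have key : ∀ X : Matrix n n T, X.map f ∈ Submodule.span F (Set.range fun σ => (M σ).map f) := by
    intro X
    have hX : X ∈ Submodule.span T (Set.range M) := by
      rw [h]
      exact Submodule.mem_top
    induction hX using Submodule.span_induction with
    | mem X hX =>
      obtain ⟨σ, rfl⟩ := hX
      exact Submodule.subset_span ⟨σ, rfl⟩
    | zero =>
      have : (0 : Matrix n n T).map f = 0 := by
        ext i j
        simp
      rw [this]
      exact Submodule.zero_mem _
    | add X Y _ _ hX hY =>
      have : (X + Y).map f = X.map f + Y.map f := by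
        ext i j
        simp
      rw [this]
      exact Submodule.add_mem _ hX hY
    | smul t X _ hX =>
      have : (t • X).map f = f t • X.map f := by
        ext i j
        simp
      rw [this]
      exact Submodule.smul_mem _ _ hX
  rw [eq_top_iff]
  intro Y _
  rw [Matrix.matrix_eq_sum_single Y]
  refine Submodule.sum_mem _ fun i _ => Submodule.sum_mem _ fun j _ => ?_
  have h1 : Matrix.single i j (Y i j) = Y i j • (Matrix.single i j (1 : T)).map f := by
    ext k l
    simp [Matrix.single_apply]
  rw [h1]
  exact Submodule.smul_mem _ _ (key _)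

end span

section scale

variable {O K : Type*} [CommRing O] [IsDomain O] [Field K] [Algebra O K] [IsFractionRing O K]

/-- clearing denominators of a 2×2 matrix. -/
theorem exists_integer_multiple_matrix (P : Matrix (Fin 2) (Fin 2) K) :
    ∃ (d : O) (P' : Matrix (Fin 2) (Fin 2) O), d ≠ 0 ∧
      P'.map (algebraMap O K) = algebraMap O K d • P := by
  obtain ⟨d, hd⟩ := IsLocalization.exist_integer_multiples_of_finite (nonZeroDivisors O)
    (fun ij : Fin 2 × Fin 2 => P ij.1 ij.2)
  choose c hc using hd
  refine ⟨(d : O), Matrix.of fun i j => c (i, j), nonZeroDivisors.coe_ne_zero d, ?_⟩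
  ext i j
  rw [Matrix.map_apply, Matrix.of_apply, hc (i, j), Matrix.smul_apply, Algebra.smul_def,
    smul_eq_mul]

end scale

section main

variable {T : Type} [CommRing T] [IsLocalRing T] (ρ : GaloisRepAdic T)
  (b : Module.Basis (Fin 2) T ρ.V)
  {O₂ : Type} [CommRing O₂] [IsDomain O₂]

/-- **the intertwiner.** -/
theorem exists_intertwiner (habs : ρ.residual.IsAbsolutelyIrreducible) (f : T →+* O₂)
    (Mw : GQ →* Matrix (Fin 2) (Fin 2) O₂)
    (hquad : ∀ σ : GQ, Mw σ * Mw σ - ((matOf ρ b σ).map f).trace • Mw σ +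
      ((matOf ρ b σ).map f).det • (1 : Matrix (Fin 2) (Fin 2) O₂) = 0) :
    ∃ P : Matrix (Fin 2) (Fin 2) O₂, P.det ≠ 0 ∧
      ∀ σ : GQ, Mw σ * P = P * (matOf ρ b σ).map f := by
  classical
  let K := FractionRing O₂
  let g : O₂ →+* K := algebraMap O₂ K
  have hg : Function.Injective g := IsFractionRing.injective O₂ K
  let gM : Matrix (Fin 2) (Fin 2) O₂ →+* Matrix (Fin 2) (Fin 2) K := g.mapMatrix
  let fM : Matrix (Fin 2) (Fin 2) T →+* Matrix (Fin 2) (Fin 2) O₂ := f.mapMatrix
  let MK : GQ →* Matrix (Fin 2) (Fin 2) K := gM.toMonoidHom.comp Mw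
  let ρK : GQ →* Matrix (Fin 2) (Fin 2) K := gM.toMonoidHom.comp (fM.toMonoidHom.comp (matOf ρ b))
  have hMK : ∀ σ, MK σ = (Mw σ).map g := fun σ => rfl
  have hρK : ∀ σ, ρK σ = ((matOf ρ b σ).map f).map g := fun σ => rfl
  have hspan : Submodule.span K (Set.range ρK) = ⊤ := by
    have h1 := span_range_map_eq_top (matOf ρ b) (span_matOf_eq_top ρ b habs) (g.comp f)
    have h2 : (fun σ => (matOf ρ b σ).map (g.comp f)) = ρK := by
      funext σ
      rw [hρK, Matrix.map_map]
      rfl
    rw [h2] at h1
    exact h1
  have hquadK : ∀ σ, MK σ * MK σ - (ρK σ).trace • MK σ +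
      (ρK σ).det • (1 : Matrix (Fin 2) (Fin 2) K) = 0 := by
    intro σ
    have h1 := congrArg gM (hquad σ)
    rw [map_zero, map_add, map_sub, map_mul] at h1
    have h2 : gM (((matOf ρ b σ).map f).trace • Mw σ) = (ρK σ).trace • MK σ := by
      rw [hρK, hMK]
      ext i j
      simp [gM, Matrix.trace_fin_two]
    have h3 : gM (((matOf ρ b σ).map f).det • (1 : Matrix (Fin 2) (Fin 2) O₂)) =
        (ρK σ).det • (1 : Matrix (Fin 2) (Fin 2) K) := by
      rw [hρK]
      ext i j
      simp [gM, Matrix.det_fin_two, Matrix.one_apply]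
      split_ifs <;> simp
    rw [h2, h3] at h1
    exact h1
  obtain ⟨PK, hPK, hconj⟩ := exists_conj_of_quad MK ρK hspan hquadK
  obtain ⟨d, P', hd, hP'⟩ := exists_integer_multiple_matrix (O := O₂) PK
  refine ⟨P', ?_, ?_⟩
  · intro h0
    have h1 : (P'.map g).det = g P'.det := by
      rw [Matrix.det_fin_two, Matrix.det_fin_two, map_sub, map_mul, map_mul]
      rfl
    rw [h0, map_zero, hP', Matrix.det_smul] at h1
    have h2 : g d ≠ 0 := fun h => hd (hg (h.trans (map_zero g).symm))
    exact (mul_ne_zero (pow_ne_zero _ h2) hPK) h1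
  · intro σ
    have hinj : Function.Injective gM := by
      intro X Y hXY
      ext i j
      have := congrFun (congrFun hXY i) j
      exact hg this
    apply hinj
    rw [map_mul, map_mul]
    have e1 : gM P' = g d • PK := hP'
    have e2 : gM (Mw σ) = MK σ := rfl
    have e3 : gM ((matOf ρ b σ).map f) = ρK σ := rfl
    rw [e1, e2, e3, Matrix.mul_smul, Matrix.smul_mul, hconj σ]

end main

end Fermat.Agent.S32lib
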