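/-
S32lib / Lat (helper8): small local-algebra lemmas for the per-character piece.
* an `𝒪`-algebra hom `ψ : T → O₁` from a local integral `𝒪`-algebra to a local `𝒪`-algebra with
  `𝒪 → O₁` local sends `𝔪_T` into `𝔪_{O₁}`;
* the entries of `matOf ρ b σ - 1` are in `𝔪_T ^ n` for `σ` fixing a finite level, and the same after
  applying a ring hom `f` with `f(𝔪_T) ⊆ 𝔪`.
-/
import Mathlib
import Fermat.Prelude.Def_GaloisRep_Adic
import Fermat.Agent.S31lib.RG.Rigidity
import Fermat.Agent.S32lib.Alg.SatBound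

set_option autoImplicit false
set_option linter.unusedSectionVars false
set_option linter.style.haveILetI false

noncomputable section

namespace Fermat.Agent.S32lib

open IsLocalRing Matrix Fermat.Agent.S31lib.RG

/-- `ℚ̄` -/
local notation "Qb" => AlgebraicClosure ℚ
/-- `G_ℚ` -/
local notation "GQ" => (AlgebraicClosure ℚ ≃ₐ[ℚ] AlgebraicClosure ℚ)

section localhom

variable {𝒪 T O₁ : Type*} [CommRing 𝒪] [IsLocalRing 𝒪] [CommRing T] [IsLocalRing T] [Algebra 𝒪 T]
  [Algebra.IsIntegral 𝒪 T] [CommRing O₁] [IsLocalRing O₁] [Algebra 𝒪 O₁]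
  [IsLocalHom (algebraMap 𝒪 O₁)]

/-- an `𝒪`-algebra hom out of a local integral `𝒪`-algebra is local on maximal ideals. -/
theorem algHom_mem_maximalIdeal (ψ : T →ₐ[𝒪] O₁) {t : T} (ht : t ∈ maximalIdeal T) :
    ψ t ∈ maximalIdeal O₁ := by
  let 𝔭 : Ideal T := (maximalIdeal O₁).comap ψ.toRingHom
  haveI : 𝔭.IsPrime := Ideal.comap_isPrime _ _
  have h1 : 𝔭.comap (algebraMap 𝒪 T) = maximalIdeal 𝒪 := by
    have h2 : 𝔭.comap (algebraMap 𝒪 T) = (maximalIdeal O₁).comap (algebraMap 𝒪 O₁) := by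
      show ((maximalIdeal O₁).comap ψ.toRingHom).comap (algebraMap 𝒪 T) = _
      rw [Ideal.comap_comap]
      congr 1
      exact ψ.comp_algebraMap
    rw [h2]
    exact IsLocalRing.maximalIdeal_comap (algebraMap 𝒪 O₁)
  have h3 : 𝔭.IsMaximal := by
    apply Ideal.isMaximal_of_isIntegral_of_isMaximal_comap (R := 𝒪) 𝔭
    rw [h1]
    exact maximalIdeal.isMaximal 𝒪
  have h4 : 𝔭 = maximalIdeal T := IsLocalRing.eq_maximalIdeal h3
  have h5 : t ∈ 𝔭 := h4 ▸ ht
  exact h5

end localhom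

section entries

variable {T : Type} [CommRing T] [IsLocalRing T] (ρ : GaloisRepAdic T)
  (b : Module.Basis (Fin 2) T ρ.V)

/-- entries of `matOf ρ b σ - 1`. -/
theorem matOf_sub_one_apply (σ : GQ) (i j : Fin 2) :
    (matOf ρ b σ - 1) i j = b.repr (ρ.ρ σ (b j) - b j) i := by
  rw [matOf_apply, Matrix.sub_apply, LinearMap.toMatrix_apply, map_sub, Finsupp.sub_apply,
    Module.Basis.repr_self, Matrix.one_apply, Finsupp.single_apply]
  by_cases h : i = j
  · rw [if_pos h, if_pos h.symm]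
  · rw [if_neg h, if_neg (Ne.symm h)]

/-- adic continuity of the matrices of `ρ`. -/
theorem matOf_continuous (n : ℕ) : ∃ L : IntermediateField ℚ Qb, FiniteDimensional ℚ L ∧
    ∀ σ : GQ, (∀ x ∈ L, σ x = x) → ∀ i j, (matOf ρ b σ - 1) i j ∈ maximalIdeal T ^ n := by
  obtain ⟨L, hL, h⟩ := ρ.isAdicContinuous n
  refine ⟨L, hL, fun σ hσ i j => ?_⟩
  rw [matOf_sub_one_apply]
  exact (mem_smul_top_iff_repr b _ _).mp (h σ hσ (b j)) i

variable {O₂ : Type*} [CommRing O₂] [IsLocalRing O₂]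

/-- adic continuity of the matrices of `ρ` pushed along a local ring hom. -/
theorem map_matOf_continuous (f : T →+* O₂) (hf : ∀ t ∈ maximalIdeal T, f t ∈ maximalIdeal O₂)
    (n : ℕ) : ∃ L : IntermediateField ℚ Qb, FiniteDimensional ℚ L ∧
    ∀ σ : GQ, (∀ x ∈ L, σ x = x) → ∀ i j,
      ((matOf ρ b σ).map f - 1) i j ∈ maximalIdeal O₂ ^ n := by
  obtain ⟨L, hL, h⟩ := matOf_continuous ρ b n
  refine ⟨L, hL, fun σ hσ i j => ?_⟩
  have h1 : ((matOf ρ b σ).map f - 1) i j = f ((matOf ρ b σ - 1) i j) := by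
    rw [Matrix.sub_apply, Matrix.sub_apply, Matrix.map_apply, map_sub, Matrix.one_apply,
      Matrix.one_apply]
    by_cases hij : i = j
    · rw [if_pos hij, if_pos hij, map_one]
    · rw [if_neg hij, if_neg hij, map_zero]
  rw [h1]
  have h2 : Ideal.map f (maximalIdeal T ^ n) ≤ maximalIdeal O₂ ^ n := by
    rw [Ideal.map_pow]
    apply Ideal.pow_right_mono
    rw [Ideal.map_le_iff_le_comap]
    intro t ht
    exact hf t ht
  exact h2 (Ideal.mem_map_of_mem f (h σ hσ i j))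

end entries

end Fermat.Agent.S32lib
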