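/-
S32lib / Lat (helper8): the adic eigenlattice of `S29lib/S30/AdicLattice`, **with the lattice and the
action made explicit**: `V = kerO (eigMatO 𝒯 a) ⊆ O^r` and `ρ σ x = galMatO σ *ᵥ x`
(the statement of `S30.exists_adic_lattice` hides both behind an existential).  Then the matrix
form: a basis `w 0, w 1` of `V` and the matrices `Mw σ` of `galMatO σ` in this basis.
-/
import Fermat.Agent.S29lib.S30.AdicLattice

set_option autoImplicit false
set_option linter.unusedSectionVars false
set_option linter.style.haveILetI false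

noncomputable section

namespace Fermat.Agent.S32lib

open Matrix Fermat.Agent.S29lib.E Fermat.Agent.S29lib.S30

section main

variable {G I : Type} [Monoid G] {p r : ℕ} (𝒯 : TorsionSystem G I p r)

/-- the adic lattice, explicit form. -/
theorem exists_adic_lattice_coe
    (O : Type) [CommRing O] [IsDomain O] [IsDiscreteValuationRing O]
    [IsAdicComplete (IsLocalRing.maximalIdeal O) O] (hpO : (p : O) ∈ IsLocalRing.maximalIdeal O)
    (a : I → O) {L : Type} [Field L] (emb : O →+* L) (hemb : Function.Injective emb)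
    (hfin : Module.finrank L ↥(⨅ i, LinearMap.ker
      (Matrix.toLin' ((𝒯.t i).map (Int.cast : ℤ → L)) - emb (a i) • 1)) = 2) :
    ∃ (ρ : G →* Module.End O ↥(kerO (eigMatO 𝒯 a))),
      Module.Free O ↥(kerO (eigMatO 𝒯 a)) ∧ Module.Finite O ↥(kerO (eigMatO 𝒯 a)) ∧
      Module.finrank O ↥(kerO (eigMatO 𝒯 a)) = 2 ∧
      (∀ (σ : G) (x : ↥(kerO (eigMatO 𝒯 a))),
        ((ρ σ x : ↥(kerO (eigMatO 𝒯 a))) : Fin r → O) =
          galMatO 𝒯 (IsLocalRing.maximalIdeal O) hpO σ *ᵥ (x : Fin r → O)) ∧
      (∀ (k : ℕ) (σ : G), (∀ x : 𝒯.T k, 𝒯.act k σ x = x) →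
        ∀ v : ↥(kerO (eigMatO 𝒯 a)), ρ σ v - v ∈
          (IsLocalRing.maximalIdeal O ^ k) • (⊤ : Submodule O ↥(kerO (eigMatO 𝒯 a)))) ∧
      (∀ σ : G, (∀ k, ∀ x : 𝒯.T k, 𝒯.act k σ x = x) → ρ σ = 1) ∧
      (∀ (σ : G) (i : I) (n : ℕ),
        (∀ k, ∀ x : 𝒯.T k, 𝒯.act k σ (𝒯.act k σ x) - 𝒯.tj k i (𝒯.act k σ x) + n • x = 0) →
        ρ σ * ρ σ - a i • ρ σ + (n : O) • (1 : Module.End O ↥(kerO (eigMatO 𝒯 a))) = 0) := by
  classical
  set J := IsLocalRing.maximalIdeal O with hJ
  set A := eigMatO 𝒯 a with hA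
  set V : Submodule O (Fin r → O) := kerO A with hV
  obtain ⟨S, v, hSv⟩ := exists_echelonBasis (kerO A) (isSat_kerO A)
  have hcard : S.card = 2 := by
    rw [← finrank_kerL A emb hemb hSv, hA, ker_eigMatO_map_eq, hfin]
  -- the basis of `V`
  let w : S → V := fun s => ⟨v s, hSv.mem s s.2⟩
  have hli : LinearIndependent O w := by
    rw [Fintype.linearIndependent_iff]
    intro g hg s
    set c : Fin r → O := fun s => if h : s ∈ S then g ⟨s, h⟩ else 0 with hc
    have h1 : ((∑ s : S, g s • w s : V) : Fin r → O) = ∑ s ∈ S, c s • v s := by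
      rw [← Finset.sum_coe_sort S (fun s => c s • v s), Submodule.coe_sum]
      refine Finset.sum_congr rfl fun s _ => ?_
      simp [hc, s.2, w]
    have h2 := sum_smul_apply_of_diag hSv.diag c s.2
    rw [← h1, hg] at h2
    simpa [hc, s.2] using h2.symm
  have hsp : ⊤ ≤ Submodule.span O (Set.range w) := by
    intro x _
    have hx := hSv.span x x.2
    have hx' : x = ∑ s ∈ S.attach, (x : Fin r → O) s • w s := by
      apply Subtype.ext
      rw [Submodule.coe_sum]
      have hterm : ∀ i ∈ S.attach, ((((x : Fin r → O) i • w i : V)) : Fin r → O) =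
          (fun s => (x : Fin r → O) s • v s) i := fun i _ => rfl
      rw [Finset.sum_congr rfl hterm, Finset.sum_attach S (fun s => (x : Fin r → O) s • v s)]
      exact hx
    rw [hx']
    exact Submodule.sum_mem _ fun s _ =>
      Submodule.smul_mem _ _ (Submodule.subset_span ⟨s, rfl⟩)
  let b : Module.Basis S O V := Module.Basis.mk hli hsp
  have hfree : Module.Free O V := Module.Free.of_basis b
  have hfinite : Module.Finite O V := Module.Finite.of_basis b
  have hrank : Module.finrank O V = 2 := by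
    rw [Module.finrank_eq_card_basis b, Fintype.card_coe, hcard]
  -- the action
  have hstab : ∀ σ : G, ∀ x ∈ V, Matrix.toLin' (galMatO 𝒯 J hpO σ) x ∈ V := by
    intro σ x hx
    rw [Matrix.toLin'_apply]
    exact mulVec_mem_kerO 𝒯 a (fun i => galMatO_comm_t 𝒯 J hpO σ i) hx
  let ρ : G →* Module.End O V :=
    { toFun := fun σ => (Matrix.toLin' (galMatO 𝒯 J hpO σ)).restrict (hstab σ)
      map_one' := by
        apply LinearMap.ext
        intro x
        apply Subtype.ext
        rw [LinearMap.coe_restrict_apply, galMatO_one, Matrix.toLin'_one]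
        rfl
      map_mul' := by
        intro σ τ
        apply LinearMap.ext
        intro x
        apply Subtype.ext
        rw [LinearMap.coe_restrict_apply, galMatO_mul, Matrix.toLin'_mul]
        rfl }
  have hρ : ∀ (σ : G) (x : V),
      ((ρ σ x : V) : Fin r → O) = (galMatO 𝒯 J hpO σ) *ᵥ (x : Fin r → O) := by
    intro σ x
    show ((Matrix.toLin' (galMatO 𝒯 J hpO σ)).restrict (hstab σ) x : Fin r → O) = _
    rw [LinearMap.coe_restrict_apply, Matrix.toLin'_apply]
  refine ⟨ρ, hfree, hfinite, hrank, hρ, ?_, ?_, ?_⟩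
  · -- adic continuity
    intro k σ hσ x
    obtain ⟨ϖ, hϖ⟩ := IsDiscreteValuationRing.exists_irreducible O
    have hJk : J ^ k = Ideal.span {ϖ ^ k} := by
      rw [hJ, hϖ.maximalIdeal_eq, Ideal.span_singleton_pow]
    have hϖk : ϖ ^ k ≠ 0 := pow_ne_zero k hϖ.ne_zero
    -- coordinates of `ρ σ x - x` are divisible by `ϖ^k`
    have hcoord : ∀ j, ∃ u : O, ((ρ σ x - x : V) : Fin r → O) j = ϖ ^ k * u := by
      intro j
      have h1 : ((ρ σ x - x : V) : Fin r → O) j =
          ∑ j', (galMatO 𝒯 J hpO σ - 1) j j' * (x : Fin r → O) j' := by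
        rw [Submodule.coe_sub, hρ, Pi.sub_apply]
        have h2 : (x : Fin r → O) j = ((1 : Matrix (Fin r) (Fin r) O) *ᵥ (x : Fin r → O)) j := by
          rw [Matrix.one_mulVec]
        conv_lhs => rw [h2]
        rw [← Pi.sub_apply, ← Matrix.sub_mulVec]
        rfl
      have h3 : ((ρ σ x - x : V) : Fin r → O) j ∈ J ^ k := by
        rw [h1]
        exact Ideal.sum_mem _ fun j' _ =>
          Ideal.mul_mem_right _ _ (galMatO_sub_one_mem 𝒯 J hpO k σ hσ j j')
      rw [hJk, Ideal.mem_span_singleton] at h3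
      exact h3
    choose u hu using hcoord
    have huV : u ∈ V := by
      apply isSat_kerO A (ϖ ^ k) hϖk
      have : ϖ ^ k • u = ((ρ σ x - x : V) : Fin r → O) := by
        funext j
        rw [Pi.smul_apply, smul_eq_mul, hu j]
      rw [this]
      exact (ρ σ x - x).2
    have heq : ρ σ x - x = ϖ ^ k • (⟨u, huV⟩ : V) := by
      apply Subtype.ext
      funext j
      rw [hu j]
      rfl
    rw [heq]
    refine Submodule.smul_mem_smul ?_ Submodule.mem_top
    rw [hJk]
    exact Ideal.mem_span_singleton_self _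
  · intro σ hσ
    apply LinearMap.ext
    intro x
    apply Subtype.ext
    rw [hρ, galMatO_eq_one_of_fix 𝒯 J hpO σ hσ, Matrix.one_mulVec]
    rfl
  · intro σ i n h
    apply LinearMap.ext
    intro x
    apply Subtype.ext
    have hfrob := galMatO_frob 𝒯 J hpO σ i n h
    have hmem : (galMatO 𝒯 J hpO σ) *ᵥ (x : Fin r → O) ∈ V := by
      rw [← hρ]
      exact (ρ σ x).2
    have heig : (𝒯.t i).map (Int.cast : ℤ → O) *ᵥ ((galMatO 𝒯 J hpO σ) *ᵥ (x : Fin r → O)) =
        a i • ((galMatO 𝒯 J hpO σ) *ᵥ (x : Fin r → O)) := by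
      have := (mem_kerO A).mp hmem i
      rw [hA, eigMatO, Matrix.sub_mulVec, Matrix.smul_mulVec, Matrix.one_mulVec, sub_eq_zero]
        at this
      exact this
    have h1 := congrArg (fun M => M *ᵥ (x : Fin r → O)) hfrob
    simp only [Matrix.add_mulVec, Matrix.sub_mulVec, Matrix.smul_mulVec, Matrix.one_mulVec,
      Matrix.zero_mulVec, ← Matrix.mulVec_mulVec] at h1
    rw [heig] at h1
    rw [LinearMap.add_apply, LinearMap.sub_apply, Module.End.mul_apply, LinearMap.smul_apply,
      LinearMap.smul_apply, Module.End.one_apply, LinearMap.zero_apply]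
    rw [Submodule.coe_add, Submodule.coe_sub, Submodule.coe_smul, Submodule.coe_smul,
      Submodule.coe_zero, hρ, hρ]
    exact h1

end main

end Fermat.Agent.S32lib
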