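/-
S32lib / Lat (helper8): the adic eigenlattice in **matrix form**, inside `O^r`: a basis `w 0, w 1`
of `V = kerO (eigMatO 𝒯 a)` and the matrices `Mw σ` of `galMatO σ` in this basis, with
`galMatO σ *ᵥ w j = ∑ i, Mw σ i j • w i`, adic continuity and the Frobenius quadratic relation.
-/
import Fermat.Agent.S32lib.Lat.Explicit
import Fermat.Agent.S29lib.S30.AdicMatrix

set_option autoImplicit false
set_option linter.unusedSectionVars false
set_option linter.style.haveILetI false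

noncomputable section

namespace Fermat.Agent.S32lib

open Matrix Fermat.Agent.S29lib.E Fermat.Agent.S29lib.S30

section main

variable {G I : Type} [Monoid G] {p r : ℕ} (𝒯 : TorsionSystem G I p r)

/-- the adic lattice, matrix form inside `O^r`. -/
theorem exists_adic_lattice_matrix
    (O : Type) [CommRing O] [IsDomain O] [IsDiscreteValuationRing O]
    [IsAdicComplete (IsLocalRing.maximalIdeal O) O] (hpO : (p : O) ∈ IsLocalRing.maximalIdeal O)
    (a : I → O) {L : Type} [Field L] (emb : O →+* L) (hemb : Function.Injective emb)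
    (hfin : Module.finrank L ↥(⨅ i, LinearMap.ker
      (Matrix.toLin' ((𝒯.t i).map (Int.cast : ℤ → L)) - emb (a i) • 1)) = 2) :
    ∃ (w : Fin 2 → (Fin r → O)) (Mw : G →* Matrix (Fin 2) (Fin 2) O),
      LinearIndependent O w ∧
      (∀ (σ : G) (j : Fin 2), galMatO 𝒯 (IsLocalRing.maximalIdeal O) hpO σ *ᵥ w j =
        ∑ i, Mw σ i j • w i) ∧
      (∀ (k : ℕ) (σ : G), (∀ x : 𝒯.T k, 𝒯.act k σ x = x) →
        ∀ i j, (Mw σ - 1) i j ∈ IsLocalRing.maximalIdeal O ^ k) ∧
      (∀ (σ : G) (i : I) (n : ℕ),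
        (∀ k, ∀ x : 𝒯.T k, 𝒯.act k σ (𝒯.act k σ x) - 𝒯.tj k i (𝒯.act k σ x) + n • x = 0) →
        Mw σ * Mw σ - a i • Mw σ + (n : O) • (1 : Matrix (Fin 2) (Fin 2) O) = 0) := by
  classical
  obtain ⟨ρ, hfree, hfinite, hrank, hρ, hcont, -, hfrob⟩ :=
    exists_adic_lattice_coe 𝒯 O hpO a emb hemb hfin
  let b : Module.Basis (Fin 2) O ↥(kerO (eigMatO 𝒯 a)) :=
    Module.finBasisOfFinrankEq O ↥(kerO (eigMatO 𝒯 a)) hrank
  let Φ : Module.End O ↥(kerO (eigMatO 𝒯 a)) ≃ₐ[O] Matrix (Fin 2) (Fin 2) O := LinearMap.toMatrixAlgEquiv b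
  let Mw : G →* Matrix (Fin 2) (Fin 2) O := (Φ : Module.End O ↥(kerO (eigMatO 𝒯 a)) →* Matrix (Fin 2) (Fin 2) O).comp ρ
  have hMw : ∀ σ, Mw σ = Φ (ρ σ) := fun σ => rfl
  refine ⟨fun j => ((b j : ↥(kerO (eigMatO 𝒯 a))) : Fin r → O), Mw, ?_, ?_, ?_, ?_⟩
  · have := b.linearIndependent.map' (kerO (eigMatO 𝒯 a)).subtype (Submodule.ker_subtype _)
    exact this
  · intro σ j
    rw [← hρ σ (b j)]
    have h1 : ρ σ (b j) = ∑ i, Mw σ i j • b i := by
      have := b.sum_repr (ρ σ (b j))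
      rw [← this]
      refine Finset.sum_congr rfl fun i _ => ?_
      rw [hMw]
      change _ = LinearMap.toMatrixAlgEquiv b (ρ σ) i j • b i
      rw [LinearMap.toMatrixAlgEquiv_apply]
    rw [h1, Submodule.coe_sum]
    rfl
  · intro k σ hσ i j
    have h1 : (Mw σ - 1) i j = b.repr (ρ σ (b j) - b j) i := by
      rw [hMw, ← map_one Φ, ← map_sub]
      show LinearMap.toMatrixAlgEquiv b (ρ σ - 1) i j = _
      rw [LinearMap.toMatrixAlgEquiv_apply, LinearMap.sub_apply, Module.End.one_apply]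
    rw [h1]
    exact repr_mem_of_mem_smul_top b _ (hcont k σ hσ (b j)) i
  · intro σ i n h
    have h0 := hfrob σ i n h
    rw [hMw]
    generalize a i = c at h0 ⊢
    have h1 : Φ (ρ σ * ρ σ - c • ρ σ + (n : O) • 1) = 0 := by rw [h0, map_zero]
    have e1 := map_add Φ (ρ σ * ρ σ - c • ρ σ) ((n : O) • 1)
    have e2 := map_sub Φ (ρ σ * ρ σ) (c • ρ σ)
    have e3 := map_mul Φ (ρ σ) (ρ σ)
    have e4 := map_smul Φ c (ρ σ)
    have e5 := map_smul Φ (n : O) (1 : Module.End O ↥(kerO (eigMatO 𝒯 a)))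
    have e6 := map_one Φ
    rw [e1, e2, e3, e4, e5, e6] at h1
    exact h1

end main

end Fermat.Agent.S32lib
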