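/-
S32lib / Lat (helper8): **the arithmetic set-up of the per-character piece.**  In the situation of
S32 with a character `ψ : T → O₁` into a complete DVR: there are a finite extension `O₂` of `O₁`
(a complete DVR), a comparison datum `C`, a rank-2 sublattice of `O₂^r` with basis `w 0, w 1`, stable
under the limit matrices `galMatO σ`, whose matrices `Mw σ` satisfy the Cayley–Hamilton relation of
`ρ' σ = ψ₂(matOf ρ b σ)` for EVERY `σ ∈ G_ℚ` (weak Chebotarev + adic continuity).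
-/
import Fermat.Agent.S32lib.Lat.MatrixForm
import Fermat.Agent.S32lib.Lat.Local
import Fermat.Agent.S32lib.Cheb.Transfer
import Fermat.Agent.S29lib.Z.Final
import Fermat.Agent.S29lib.S30.EigenData
import Fermat.Agent.S31lib.WC.Export
import Fermat.Prelude.Def_CuspForm_HeckeGaloisRepDatum

set_option autoImplicit false
set_option linter.unusedSectionVars false
set_option linter.style.haveILetI false

noncomputable section

namespace Fermat.Agent.S32lib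

open IsLocalRing Matrix Polynomial Fermat.Agent.S31lib.RG Fermat.Agent.S29lib
  Fermat.Agent.S29lib.E Fermat.Agent.S29lib.S30 Fermat.Agent.S29lib.Dvr CuspForm

/-- `ℚ̄` -/
local notation "Qb" => AlgebraicClosure ℚ
/-- `G_ℚ` -/
local notation "GQ" => (AlgebraicClosure ℚ ≃ₐ[ℚ] AlgebraicClosure ℚ)

section tracedet

variable {T : Type} [CommRing T] [IsLocalRing T] (ρ : GaloisRepAdic T)
  (b : Module.Basis (Fin 2) T ρ.V)

/-- trace and determinant of `matOf ρ b σ` from a quadratic characteristic polynomial. -/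
theorem trace_det_matOf_of_charpoly (σ : GQ) {t d : T}
    (h : LinearMap.charpoly (ρ.ρ σ) = X ^ 2 - C t * X + C d) :
    (matOf ρ b σ).trace = t ∧ (matOf ρ b σ).det = d := by
  have h1 : (matOf ρ b σ).charpoly = X ^ 2 - C t * X + C d := by
    rw [matOf_apply, LinearMap.charpoly_toMatrix, h]
  rw [Matrix.charpoly_fin_two] at h1
  constructor
  · have h2 := congrArg (fun q : T[X] => q.coeff 1) h1
    simp only [coeff_add, coeff_sub, coeff_X_pow, coeff_C_mul, coeff_X_one, coeff_C] at h2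
    norm_num at h2
    exact h2
  · have h2 := congrArg (fun q : T[X] => q.coeff 0) h1
    simp only [coeff_add, coeff_sub, coeff_X_pow, coeff_C_mul, coeff_X_zero, coeff_C] at h2
    norm_num at h2
    exact h2

end tracedet

variable {p : ℕ} {N : ℕ} [NeZero N] {S : Finset ℕ}
  {𝒪 : Type} [CommRing 𝒪] [IsDomain 𝒪] [IsDiscreteValuationRing 𝒪]
  [IsAdicComplete (IsLocalRing.maximalIdeal 𝒪) 𝒪]
  {θ : CuspForm.heckeAlgebra N 2 (↑S : Set ℕ) →+* IsLocalRing.ResidueField 𝒪}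
  {T : Type} [CommRing T] [IsLocalRing T] [IsNoetherianRing T]
  [IsAdicComplete (IsLocalRing.maximalIdeal T) T] [Algebra 𝒪 T] [IsLocalHom (algebraMap 𝒪 T)]
  [Module.Finite 𝒪 T] [Module.Free 𝒪 T]

/-- **the arithmetic set-up of the per-character piece.** -/
theorem exists_piece_setup
    (hp : p.Prime) (hp𝒪 : (p : 𝒪) ∈ IsLocalRing.maximalIdeal 𝒪)
    (hpS : p ∈ S) (hNS : ∀ q : ℕ, q.Prime → q ∣ N → q ∈ S)
    (H : CuspForm.HeckeGaloisRepDatum N (↑S : Set ℕ) 𝒪 θ T)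
    (b : Module.Basis (Fin 2) T H.ρ.V)
    {O₁ : Type} [CommRing O₁] [IsDomain O₁] [IsDiscreteValuationRing O₁]
    [IsAdicComplete (maximalIdeal O₁) O₁] [Finite (ResidueField O₁)] [CharZero O₁]
    [Algebra 𝒪 O₁] [IsLocalHom (algebraMap 𝒪 O₁)] (ψ : T →ₐ[𝒪] O₁) :
    ∃ (O₂ : Type) (_ : CommRing O₂) (_ : IsDomain O₂) (_ : IsDiscreteValuationRing O₂)
      (_ : IsAdicComplete (maximalIdeal O₂) O₂) (_ : Finite (ResidueField O₂)) (_ : CharZero O₂)
      (_ : Algebra O₁ O₂) (_ : Module.Finite O₁ O₂) (_ : IsLocalHom (algebraMap O₁ O₂)),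
      Function.Injective (algebraMap O₁ O₂) ∧
      ∃ (Cd : ComparisonData N p) (hpO₂ : (p : O₂) ∈ maximalIdeal O₂)
        (w : Fin 2 → (Fin Cd.r → O₂)) (Mw : GQ →* Matrix (Fin 2) (Fin 2) O₂),
        LinearIndependent O₂ w ∧
        (∀ (σ : GQ) (j : Fin 2),
          galMatO (torsionSystemOf Cd) (maximalIdeal O₂) hpO₂ σ *ᵥ w j = ∑ i, Mw σ i j • w i) ∧
        ∀ σ : GQ, Mw σ * Mw σ -
          ((matOf H.ρ b σ).map ((algebraMap O₁ O₂).comp (ψ : T →+* O₁))).trace • Mw σ +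
          ((matOf H.ρ b σ).map ((algebraMap O₁ O₂).comp (ψ : T →+* O₁))).det •
            (1 : Matrix (Fin 2) (Fin 2) O₂) = 0 := by
  classical
  -- comparison data, eigen input, local data
  obtain ⟨Cd, hCg⟩ := Fermat.Agent.S29lib.Z.compStatement N p hp
  have hL : LocalData N p := GH.localData_of_comparisonData Cd hp.ne_zero
  -- the eigen data of the character `ψ ∘ π`
  obtain ⟨K₁, hfd, a₁, hfinL, ha₁⟩ :=
    exists_eigen_data Cd hCg (↑S : Set ℕ) O₁ ((ψ : T →+* O₁).comp H.π)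
  haveI := hfd
  obtain ⟨i1, i2, i3, i4, i5, hfin1, hloc1, hinj1⟩ :=
    exists_dvr_structure O₁ (FractionRing O₁) K₁
  have hpO₁ : (p : O₁) ∈ maximalIdeal O₁ := by
    have h1 : (p : O₁) = algebraMap 𝒪 O₁ (p : 𝒪) := (map_natCast _ p).symm
    rw [h1]
    exact map_nonunit (algebraMap 𝒪 O₁) _ hp𝒪
  have hpO₂ : (p : OL O₁ K₁) ∈ maximalIdeal (OL O₁ K₁) := by
    have h1 : (p : OL O₁ K₁) = algebraMap O₁ (OL O₁ K₁) (p : O₁) := (map_natCast _ p).symm
    rw [h1]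
    exact map_nonunit (algebraMap O₁ (OL O₁ K₁)) _ hpO₁
  refine ⟨OL O₁ K₁, inferInstance, i1, i2, i3, i4, i5, inferInstance, hfin1, hloc1, hinj1,
    Cd, hpO₂, ?_⟩
  -- the lattice in matrix form
  obtain ⟨w, Mw, hli, hact, hcont, hfrob⟩ :=
    exists_adic_lattice_matrix (torsionSystemOf Cd) (OL O₁ K₁) hpO₂ a₁
      (algebraMap (OL O₁ K₁) K₁) Subtype.val_injective hfinL
  refine ⟨w, Mw, hli, hact, ?_⟩
  -- the ring hom `ψ₂ : T → O₂` and the pushed representation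
  let ψ₂ : T →+* OL O₁ K₁ := (algebraMap O₁ (OL O₁ K₁)).comp (ψ : T →+* O₁)
  have hψ₂ : ∀ t ∈ maximalIdeal T, ψ₂ t ∈ maximalIdeal (OL O₁ K₁) := by
    intro t ht
    have h1 : ψ t ∈ maximalIdeal O₁ := algHom_mem_maximalIdeal ψ ht
    exact map_nonunit (algebraMap O₁ (OL O₁ K₁)) _ h1
  let ρ' : GQ →* Matrix (Fin 2) (Fin 2) (OL O₁ K₁) :=
    (ψ₂.mapMatrix : Matrix (Fin 2) (Fin 2) T →+* Matrix (Fin 2) (Fin 2) (OL O₁ K₁)).toMonoidHom.comp
      (matOf H.ρ b)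
  have hρ' : ∀ σ, ρ' σ = (matOf H.ρ b σ).map ψ₂ := fun σ => rfl
  -- good primes
  let good : ℕ → Prop := fun ℓ => ℓ.Prime ∧ ¬ ℓ ∣ N ∧ ℓ ∉ (↑S : Set ℕ)
  let a : ℕ → OL O₁ K₁ := fun ℓ => if h : ℓ.Prime then a₁ ⟨ℓ, h⟩ else 0
  have hgoodNp : ∀ ℓ, good ℓ → ¬ ℓ ∣ N * p := by
    intro ℓ hℓ h
    rcases (Nat.Prime.dvd_mul hℓ.1).mp h with h | h
    · exact hℓ.2.1 h
    · have : ℓ = p := (Nat.prime_dvd_prime_iff_eq hℓ.1 hp).mp h
      exact hℓ.2.2 (this ▸ Finset.mem_coe.mpr hpS)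
  have key := quad_of_frobenius (maximalIdeal (OL O₁ K₁)) Mw ρ' ?_ ?_ good a ?_ ?_
    (Fermat.Agent.S31lib.WC.brickWC_good good S ?_)
  · intro σ
    have := key σ
    rw [hρ' σ] at this
    exact this
  · -- continuity of `Mw`
    intro n
    obtain ⟨L', hL', hLfix⟩ := hL.finiteLevel n
    exact ⟨L', hL', fun σ hσ i j => hcont n σ
      (fun (x : Tors N (p ^ n)) => Subtype.ext (hLfix σ hσ (x : ModularCurve.JZero N) x.2)) i j⟩
  · -- continuity of `ρ'`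
    intro n
    exact map_matOf_continuous H.ρ b ψ₂ hψ₂ n
  · -- the Frobenius relation for `Mw`
    intro ℓ hℓ A hA φ hφ
    have hℓNp := hgoodNp ℓ hℓ
    have h0 := hfrob φ ⟨ℓ, hℓ.1⟩ ℓ (fun k (x : Tors N (p ^ k)) => by
      apply frob_tors Cd k φ ⟨ℓ, hℓ.1⟩ x
      have h1 := hL.frob ℓ hℓ.1 hℓNp A hA φ hφ k (x : ModularCurve.JZero N) x.2
      rw [Cd.TJ_good ⟨ℓ, hℓ.1⟩ hℓ.2.1, ← natCast_zsmul]
      exact h1)
    have ha : a ℓ = a₁ ⟨ℓ, hℓ.1⟩ := dif_pos hℓ.1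
    rw [ha]
    exact h0
  · -- trace and determinant of `ρ'` at Frobenius
    intro ℓ hℓ A hA φ hφ
    have h1 := H.charpoly_frob ℓ hℓ.1 hℓ.2.1 hℓ.2.2 A hA φ hφ
    obtain ⟨ht, hd⟩ := trace_det_matOf_of_charpoly H.ρ b φ h1
    have ha : a ℓ = a₁ ⟨ℓ, hℓ.1⟩ := dif_pos hℓ.1
    constructor
    · rw [hρ' φ, ha, ha₁ ℓ hℓ.1 hℓ.2.1 hℓ.2.2]
      have : ((matOf H.ρ b φ).map ψ₂).trace = ψ₂ (matOf H.ρ b φ).trace := by
        rw [Matrix.trace_fin_two, Matrix.trace_fin_two, map_add]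
        rfl
      rw [this, ht]
      rfl
    · rw [hρ' φ]
      have : ((matOf H.ρ b φ).map ψ₂).det = ψ₂ (matOf H.ρ b φ).det := by
        rw [Matrix.det_fin_two, Matrix.det_fin_two, map_sub, map_mul, map_mul]
        rfl
      rw [this, hd, map_natCast]
  · -- cofiniteness of the good primes
    intro ℓ hℓ hℓS
    refine ⟨hℓ, fun hℓN => hℓS (hNS ℓ hℓ hℓN), fun h => hℓS (Finset.mem_coe.mp h)⟩

end Fermat.Agent.S32lib
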