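/-
S32lib / Lat (helper8): **the per-character piece.**  In the situation of S32, for a character
`ψ : T →ₐ[𝒪] O₁` into a complete DVR finite over `𝒪` and every `m`, the quotient
`ρ.V / (ker ψ + p^m) ρ.V` with its level action has a finite flat model over `ℤ_(p)`, given finite flat
models of all `J₀(N)[p^n]` (S19).
-/
import Fermat.Agent.S32lib.Lat.Setup
import Fermat.Agent.S32lib.Lat.Intertwine
import Fermat.Agent.S32lib.Lat.Embed
import Fermat.Agent.S32lib.Lat.Torsion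
import Fermat.Agent.S32lib.FM.SubQuot
import Fermat.Prelude.Def_GaloisRep_Flat

set_option autoImplicit false
set_option linter.unusedSectionVars false
set_option linter.style.haveILetI false

noncomputable section

namespace Fermat.Agent.S32lib

open IsLocalRing Matrix Fermat.Agent.S31lib.RG Fermat.Agent.S31lib.TC Fermat.Agent.S29lib
  Fermat.Agent.S29lib.E Fermat.Agent.S29lib.S30 CuspForm

variable {p : ℕ} {N : ℕ} [NeZero N] {S : Finset ℕ}
  {𝒪 : Type} [CommRing 𝒪] [IsDomain 𝒪] [IsDiscreteValuationRing 𝒪]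
  [IsAdicComplete (IsLocalRing.maximalIdeal 𝒪) 𝒪]
  {θ : CuspForm.heckeAlgebra N 2 (↑S : Set ℕ) →+* IsLocalRing.ResidueField 𝒪}
  {T : Type} [CommRing T] [IsLocalRing T] [IsNoetherianRing T]
  [IsAdicComplete (IsLocalRing.maximalIdeal T) T] [Algebra 𝒪 T] [IsLocalHom (algebraMap 𝒪 T)]
  [Module.Finite 𝒪 T] [Module.Free 𝒪 T]

/-- **the per-character piece.** -/
theorem hasFlatModel_piece
    (hp : p.Prime) (hp𝒪 : (p : 𝒪) ∈ IsLocalRing.maximalIdeal 𝒪)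
    (hpS : p ∈ S) (hNS : ∀ q : ℕ, q.Prime → q ∣ N → q ∈ S)
    (H : CuspForm.HeckeGaloisRepDatum N (↑S : Set ℕ) 𝒪 θ T)
    (h19 : ∀ n : ℕ, HasFlatModel p (Tors N (p ^ n)) (fun σ x => galTors (p ^ n) σ x))
    {O₁ : Type} [CommRing O₁] [IsDomain O₁] [IsDiscreteValuationRing O₁]
    [IsAdicComplete (maximalIdeal O₁) O₁] [Finite (ResidueField O₁)] [CharZero O₁]
    [Algebra 𝒪 O₁] [Module.Finite 𝒪 O₁] [IsLocalHom (algebraMap 𝒪 O₁)] (ψ : T →ₐ[𝒪] O₁)
    (m : ℕ) :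
    HasFlatModel p
      (H.ρ.V ⧸ ((RingHom.ker (ψ : T →+* O₁) ⊔ Ideal.span {(p : T) ^ m}) •
        (⊤ : Submodule T H.ρ.V)))
      (fun σ x =>
        H.ρ.levelAction (RingHom.ker (ψ : T →+* O₁) ⊔ Ideal.span {(p : T) ^ m}) σ x) := by
  classical
  haveI : Fact p.Prime := ⟨hp⟩
  let b : Module.Basis (Fin 2) T H.ρ.V := Module.finBasisOfFinrankEq T H.ρ.V H.ρ.finrank_eq
  obtain ⟨O₂, i1, i2, i3, i4, i5, i6, i7, i8, i9, hinj, Cd, hpO₂, w, Mw, hli, hact, hquad⟩ :=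
    exists_piece_setup hp hp𝒪 hpS hNS H b ψ
  obtain ⟨P, hPdet, hP⟩ := exists_intertwiner H.ρ b H.residual_absIrr
    ((algebraMap O₁ O₂).comp (ψ : T →+* O₁)) Mw hquad
  letI : Algebra 𝒪 O₂ := ((algebraMap O₁ O₂).comp (algebraMap 𝒪 O₁)).toAlgebra
  haveI : IsScalarTower 𝒪 O₁ O₂ := IsScalarTower.of_algebraMap_eq fun _ => rfl
  haveI : Module.Finite 𝒪 O₂ := Module.Finite.trans O₁ O₂
  let ψ₂ : T →ₐ[𝒪] O₂ := (IsScalarTower.toAlgHom 𝒪 O₁ O₂).comp ψ
  have hψ₂ : (ψ₂ : T →+* O₂) = (algebraMap O₁ O₂).comp (ψ : T →+* O₁) := rfl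
  have hker₂ : RingHom.ker (ψ₂ : T →+* O₂) = RingHom.ker (ψ : T →+* O₁) := by
    rw [hψ₂]
    exact RingHom.ker_comp_of_injective _ hinj
  haveI : IsNoetherian 𝒪 (Fin Cd.r → O₂) := inferInstance
  obtain ⟨c, hc⟩ := exists_emb_bound H.ρ b ψ₂ w P hli hPdet (p : 𝒪)
  -- the ideal `𝔞 = (p^{m+c})`
  have hp0 : (p : O₂) ^ (m + c) ≠ 0 := pow_ne_zero _ (Nat.cast_ne_zero.mpr hp.ne_zero)
  obtain ⟨n, hn⟩ := exists_pow_le_span hp0
  haveI : Finite (O₂ ⧸ maximalIdeal O₂) := inferInstanceAs (Finite (ResidueField O₂))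
  haveI : Finite (O₂ ⧸ maximalIdeal O₂ ^ n) :=
    Ideal.finite_quotient_pow (IsNoetherian.noetherian _) n
  haveI : Finite (O₂ ⧸ Ideal.span {(p : O₂) ^ (m + c)}) :=
    Finite.of_surjective (Ideal.Quotient.factor hn) (Ideal.Quotient.factor_surjective hn)
  have hmodel := hasFlatModel_quot Cd hpO₂ h19 (Ideal.span {(p : O₂) ^ (m + c)}) n hn
  -- the maps
  let f : H.ρ.V →+ (Fin Cd.r → O₂ ⧸ Ideal.span {(p : O₂) ^ (m + c)}) :=
    (AddMonoidHom.compLeft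
      (Ideal.Quotient.mk (Ideal.span {(p : O₂) ^ (m + c)})).toAddMonoidHom (Fin Cd.r)).comp
      (embHom H.ρ b (ψ₂ : T →+* O₂) w P)
  have hf_apply : ∀ v i, f v i =
      Ideal.Quotient.mk (Ideal.span {(p : O₂) ^ (m + c)}) (emb H.ρ b (ψ₂ : T →+* O₂) w P v i) :=
    fun v i => rfl
  refine hmodel.of_subquotient (fun σ => (H.ρ.ρ σ).toAddMonoidHom) f
    (Submodule.mkQ _).toAddMonoidHom ?_ ?_ ?_ ?_
  · -- equivariance of `f`
    intro σ v
    funext i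
    show f (H.ρ.ρ σ v) i = _
    rw [hf_apply, emb_map H.ρ b (ψ₂ : T →+* O₂) w P
      (fun σ => galMatO (torsionSystemOf Cd) (maximalIdeal O₂) hpO₂ σ) (fun σ => Mw σ) hact
      (fun σ => hP σ) σ v, RingHom.map_mulVec]
    rfl
  · -- equivariance of the quotient map
    intro σ v
    rfl
  · exact Submodule.mkQ_surjective _
  · -- the kernel
    intro v hv
    have h1 : ∀ i, ∃ u : O₂, emb H.ρ b (ψ₂ : T →+* O₂) w P v i = (p : O₂) ^ (m + c) * u := by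
      intro i
      have h2 := congrFun hv i
      rw [hf_apply] at h2
      have h3 : emb H.ρ b (ψ₂ : T →+* O₂) w P v i ∈ Ideal.span {(p : O₂) ^ (m + c)} :=
        Ideal.Quotient.eq_zero_iff_mem.mp h2
      obtain ⟨u, hu⟩ := Ideal.mem_span_singleton'.mp h3
      exact ⟨u, by rw [← hu, mul_comm]⟩
    choose u hu using h1
    have h4 : emb H.ρ b (ψ₂ : T →+* O₂) w P v = algebraMap 𝒪 O₂ (p : 𝒪) ^ (m + c) • u := by
      funext i
      rw [hu i, map_natCast, Pi.smul_apply, smul_eq_mul]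
    have h5 := hc v m u h4
    rw [hker₂, map_natCast] at h5
    show Submodule.mkQ _ v = 0
    rw [Submodule.mkQ_apply, Submodule.Quotient.mk_eq_zero]
    exact h5

end Fermat.Agent.S32lib
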