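/-
S32lib / Lat (helper8): **`(O/𝔞)^r` with the limit action is a quotient of a power of `J₀(N)[p^n]`.**
`C` a comparison datum, `O` a complete local ring with `p ∈ 𝔪`, `𝔞 ⊇ 𝔪^n` an ideal of finite index.
The map `(O/𝔞 → J[p^n]) → (O/𝔞)^r`, `x ↦ ∑_c c • θ(κ_n (x c))` is additive, surjective and
`G_ℚ`-equivariant for the action of `galMatO σ mod 𝔞` on the target.  Hence a finite flat model of
`J[p^n]` yields one of `(O/𝔞)^r`.
-/
import Fermat.Agent.S32lib.FM.Prod
import Fermat.Agent.S32lib.FM.Quot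
import Fermat.Agent.S29lib.E.Transport
import Fermat.Agent.S29lib.S30.AdicLattice

set_option autoImplicit false
set_option linter.unusedSectionVars false
set_option linter.style.haveILetI false

noncomputable section

namespace Fermat.Agent.S32lib

open Matrix Fermat.Agent.S29lib Fermat.Agent.S29lib.E Fermat.Agent.S29lib.S30

section torsion

variable {N p : ℕ} [NeZero N] (C : ComparisonData N p)
  {O : Type} [CommRing O] [IsLocalRing O] [IsAdicComplete (IsLocalRing.maximalIdeal O) O]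
  (hpO : (p : O) ∈ IsLocalRing.maximalIdeal O)

/-- the action of `σ` on `(O/𝔞)^r`. -/
def actQuot (𝔞 : Ideal O) (σ : GQ) (v : Fin C.r → O ⧸ 𝔞) : Fin C.r → O ⧸ 𝔞 :=
  (galMatO (torsionSystemOf C) (IsLocalRing.maximalIdeal O) hpO σ).map (Ideal.Quotient.mk 𝔞) *ᵥ v

/-- **`(O/𝔞)^r` has a finite flat model**, given S19 for `J₀(N)[p^n]`. -/
theorem hasFlatModel_quot [Fact p.Prime]
    (h19 : ∀ n : ℕ, HasFlatModel p (Tors N (p ^ n)) (fun σ x => galTors (p ^ n) σ x))
    (𝔞 : Ideal O) [Finite (O ⧸ 𝔞)] (n : ℕ) (hn : IsLocalRing.maximalIdeal O ^ n ≤ 𝔞) :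
    HasFlatModel p (Fin C.r → O ⧸ 𝔞) (actQuot C hpO 𝔞) := by
  classical
  haveI : Fintype (O ⧸ 𝔞) := Fintype.ofFinite _
  let θ : ZMod (p ^ n) →+* O ⧸ 𝔞 :=
    (Ideal.Quotient.factor hn).comp (psi (IsLocalRing.maximalIdeal O) hpO n)
  -- reduction of the limit matrices
  have hred : ∀ σ : GQ,
      (galMatO (torsionSystemOf C) (IsLocalRing.maximalIdeal O) hpO σ).map (Ideal.Quotient.mk 𝔞) =
        ((torsionSystemOf C).galMat n σ).map θ := by
    intro σ
    have h1 := isLim_galMatO (torsionSystemOf C) (IsLocalRing.maximalIdeal O) hpO σ n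
    have h2 := congrArg (fun X : Matrix (Fin C.r) (Fin C.r) (O ⧸ IsLocalRing.maximalIdeal O ^ n) =>
      X.map (Ideal.Quotient.factor hn)) h1
    simp only [Matrix.map_map] at h2
    have e : (Ideal.Quotient.factor hn : O ⧸ IsLocalRing.maximalIdeal O ^ n → O ⧸ 𝔞) ∘
        (Ideal.Quotient.mk (IsLocalRing.maximalIdeal O ^ n)) = Ideal.Quotient.mk 𝔞 := by
      funext x
      rfl
    rw [e] at h2
    exact h2
  -- the map
  let Pmap : ((O ⧸ 𝔞) → Tors N (p ^ n)) →+ (Fin C.r → O ⧸ 𝔞) :=
    { toFun := fun x i => ∑ c : O ⧸ 𝔞, c * θ (C.κ n (x c) i)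
      map_zero' := by
        funext i
        simp
      map_add' := by
        intro x y
        funext i
        simp only [Pi.add_apply, map_add, mul_add, Finset.sum_add_distrib] }
  have hPmap : ∀ x i, Pmap x i = ∑ c : O ⧸ 𝔞, c * θ (C.κ n (x c) i) := fun _ _ => rfl
  have hmodel := (h19 n).pi (O ⧸ 𝔞)
  refine hmodel.of_surjective Pmap ?_ ?_
  · -- surjectivity
    intro v
    refine ⟨fun c => (C.κ n).symm (fun i => if v i = c then 1 else 0), ?_⟩
    funext i
    rw [hPmap]
    simp only [AddEquiv.apply_symm_apply]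
    have : ∀ c : O ⧸ 𝔞, c * θ (if v i = c then 1 else 0) = if v i = c then c else 0 := by
      intro c
      split_ifs <;> simp
    simp only [this]
    rw [Finset.sum_ite_eq Finset.univ (v i) (fun c => c)]
    simp
  · -- equivariance
    intro σ x
    funext i
    have h1 : ∀ c : O ⧸ 𝔞, C.κ n (galTors (p ^ n) σ (x c)) =
        ((torsionSystemOf C).galMat n σ) *ᵥ (C.κ n (x c)) := by
      intro c
      exact ((torsionSystemOf C).galMat_mulVec_κ n σ (x c)).symm
    have lhs : Pmap (fun c => galTors (p ^ n) σ (x c)) i =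
        ∑ c : O ⧸ 𝔞, c * θ ((((torsionSystemOf C).galMat n σ) *ᵥ (C.κ n (x c))) i) := by
      rw [hPmap]
      refine Finset.sum_congr rfl fun c _ => ?_
      rw [h1 c]
    have rhs : actQuot C hpO 𝔞 σ (Pmap x) i =
        ∑ l, θ ((torsionSystemOf C).galMat n σ i l) * ∑ c : O ⧸ 𝔞, c * θ (C.κ n (x c) l) := by
      unfold actQuot
      rw [hred, Matrix.mulVec, dotProduct]
      refine Finset.sum_congr rfl fun l _ => ?_
      rw [Matrix.map_apply, hPmap]
    refine lhs.trans (Eq.trans ?_ rhs.symm)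
    simp only [Matrix.mulVec, dotProduct, map_sum, map_mul, Finset.mul_sum]
    rw [Finset.sum_comm]
    refine Finset.sum_congr rfl fun l _ => Finset.sum_congr rfl fun c _ => ?_
    ring

end torsion

end Fermat.Agent.S32lib
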